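import Mathlib
import Fermat.Agent.S30.Density.FrobSetup

/-!
# S48 / part A / A6 (Chebotarev) / brick C9: `L' = (L')^⟨g⟩ (ζ)`

`L' / ℚ` a Galois number field, `g ∈ Gal(L'/ℚ)`, `ζ ∈ L'` such that a power of `g` fixing `ζ` is
trivial.  Then `ζ` generates `L'` over the fixed field of `g`.
-/

set_option autoImplicit false
set_option linter.style.haveILetI false

noncomputable section

namespace Fermat.Agent.S48.A.Cheb.Cross.Adjoin

open IntermediateField Fermat.Agent.S30.Density

variable {L' : Type*} [Field L'] [NumberField L'] [IsGalois ℚ L']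

theorem adjoin_fixM_eq_top (g : L' ≃ₐ[ℚ] L') (ζ : L')
    (h : ∀ j : ℕ, (g ^ j) ζ = ζ → g ^ j = 1) :
    IntermediateField.adjoin (FrobSetup.fixM g) {ζ} = ⊤ := by
  set F := IntermediateField.adjoin (FrobSetup.fixM g) {ζ} with hF
  have h1 : F.fixingSubgroup = ⊥ := by
    rw [eq_bot_iff]
    intro ρ hρ
    rw [Subgroup.mem_bot]
    have hρζ : ρ ζ = ζ := by
      have := (IntermediateField.mem_fixingSubgroup_iff F ρ).mp hρ ζ
        (IntermediateField.mem_adjoin_simple_self _ ζ)
      exact this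
    have hmem : ρ ∈ Subgroup.zpowers (FrobSetup.sigmaM g) := by
      rw [FrobSetup.zpowers_sigmaM]; exact Subgroup.mem_top ρ
    obtain ⟨j, rfl⟩ := mem_powers_iff_mem_zpowers.mpr hmem
    have h2 : (g ^ j) ζ = ζ := by
      rw [← FrobSetup.sigmaM_pow_apply]; exact hρζ
    exact (FrobSetup.sigmaM_pow_eq_one_iff g j).mpr (h j h2)
  rw [← IsGalois.fixedField_fixingSubgroup F, h1, IntermediateField.fixedField_bot]

end Fermat.Agent.S48.A.Cheb.Cross.Adjoin

end
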