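import Mathlib

/-!
# S48 / part A / A6 (Chebotarev) / brick C9, Galois theory of the crossing with `ℚ(ζ_m)`

`L / K` Galois (characteristic zero), `L'` a cyclotomic extension of `L` for the prime `m`,
`ζ ∈ L'` a primitive `m`-th root of unity.

* `isGalois_of_cyclotomic` : `L' / K` is Galois;
* `resChar hζ : Gal(L'/K) →* Gal(L/K) × (ZMod m)ˣ` (restriction, cyclotomic character) is
  injective, and bijective when `Φ_m` is irreducible over `L`;
* `exists_aut` : an element `g` with given restriction `σ` and cyclotomic character `τ`;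
* `orderOf_eq` : its order is `orderOf τ` when `orderOf σ ∣ orderOf τ`;
* `card_centralizer_le` : `|C(g)| ≤ |C(σ)| (m - 1)`.
-/

set_option autoImplicit false
set_option linter.style.haveILetI false
set_option linter.unusedSectionVars false

noncomputable section

namespace Fermat.Agent.S48.A.Cheb.Cross.Gal

open IntermediateField Polynomial

variable {K L L' : Type*} [Field K] [Field L] [Field L'] [CharZero K] [Algebra K L] [Algebra L L']
  [Algebra K L'] [IsScalarTower K L L']

section Normal

variable (K L L') in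
/-- a cyclotomic extension of a Galois extension of `K` is Galois over `K` -/
theorem isGalois_of_cyclotomic (m : ℕ) [NeZero m] [IsGalois K L] [IsCyclotomicExtension {m} L L'] :
    IsGalois K L' := by
  obtain ⟨ζ, hζ⟩ := IsCyclotomicExtension.exists_isPrimitiveRoot L L' (Set.mem_singleton m)
    (NeZero.ne m)
  haveI : Algebra.IsIntegral L L' := IsCyclotomicExtension.integral {m} L L'
  haveI : Algebra.IsIntegral K L := inferInstance
  haveI : Algebra.IsIntegral K L' := Algebra.IsIntegral.trans (R := K) (A := L) (B := L')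
  -- the two normal subfields
  set F₁ : IntermediateField K L' := (IsScalarTower.toAlgHom K L L').fieldRange with hF₁
  set F₂ : IntermediateField K L' := IntermediateField.adjoin K {ζ} with hF₂
  haveI : Normal K F₁ :=
    Normal.of_algEquiv (AlgEquiv.ofInjectiveField (IsScalarTower.toAlgHom K L L'))
  haveI : IsCyclotomicExtension {m} K F₂ :=
    hζ.intermediateField_adjoin_isCyclotomicExtension K
  haveI : IsGalois K F₂ := IsCyclotomicExtension.isGalois {m} K F₂
  haveI : Normal K F₂ := inferInstance
  have htop : F₁ ⊔ F₂ = ⊤ := by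
    rw [eq_top_iff]
    intro x hx0
    clear hx0
    have hx : x ∈ Algebra.adjoin L {ζ} := by
      rw [IsCyclotomicExtension.adjoin_primitive_root_eq_top hζ]
      exact Algebra.mem_top
    induction hx using Algebra.adjoin_induction with
    | mem y hy =>
      rw [Set.mem_singleton_iff] at hy
      rw [hy]
      exact (le_sup_right : F₂ ≤ F₁ ⊔ F₂) (IntermediateField.mem_adjoin_simple_self K ζ)
    | algebraMap l =>
      exact (le_sup_left : F₁ ≤ F₁ ⊔ F₂) ⟨l, rfl⟩
    | add y z _ _ hy hz => exact add_mem hy hz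
    | mul y z _ _ hy hz => exact mul_mem hy hz
  haveI : Normal K (F₁ ⊔ F₂ : IntermediateField K L') := inferInstance
  haveI : Normal K (⊤ : IntermediateField K L') := htop ▸ this
  haveI : Normal K L' := Normal.of_algEquiv (IntermediateField.topEquiv (F := K) (E := L'))
  exact isGalois_iff.mpr ⟨inferInstance, inferInstance⟩

end Normal

section ResChar

variable {m : ℕ} [Fact m.Prime] {ζ : L'} (hζ : IsPrimitiveRoot ζ m)

theorem neZero_of_prime : NeZero m := ⟨(Fact.out : m.Prime).ne_zero⟩

attribute [local instance] neZero_of_prime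

include hζ in
/-- `ζ ^ a = ζ ^ b ↔ a = b` in `ZMod m` -/
theorem pow_eq_pow_iff (a b : ℕ) : ζ ^ a = ζ ^ b ↔ (a : ZMod m) = (b : ZMod m) := by
  have hfin : IsOfFinOrder ζ :=
    isOfFinOrder_iff_pow_eq_one.mpr ⟨m, (Fact.out : m.Prime).pos, hζ.pow_eq_one⟩
  rw [ZMod.natCast_eq_natCast_iff, hfin.pow_eq_pow_iff_modEq, ← hζ.eq_orderOf]

variable (K) in
/-- the defining property of the cyclotomic character -/
theorem apply_zeta (h : L' ≃ₐ[K] L') : h ζ = ζ ^ ((hζ.autToPow K h : (ZMod m)ˣ) : ZMod m).val :=
  (hζ.autToPow_spec K h).symm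

variable (K) in
/-- the cyclotomic character is determined by the image of `ζ` -/
theorem autToPow_eq_iff (h : L' ≃ₐ[K] L') (τ : (ZMod m)ˣ) :
    hζ.autToPow K h = τ ↔ h ζ = ζ ^ (τ : ZMod m).val := by
  rw [apply_zeta K hζ h, pow_eq_pow_iff hζ, ZMod.natCast_zmod_val, ZMod.natCast_zmod_val,
    Units.val_inj]

variable [IsGalois K L]

variable (K L) in
/-- restriction to `L` and cyclotomic character -/
def resChar : (L' ≃ₐ[K] L') →* (L ≃ₐ[K] L) × (ZMod m)ˣ :=
  (AlgEquiv.restrictNormalHom L).prod (hζ.autToPow K)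

theorem resChar_fst (h : L' ≃ₐ[K] L') :
    (resChar K L hζ h).1 = AlgEquiv.restrictNormalHom L h := rfl

theorem resChar_snd (h : L' ≃ₐ[K] L') : (resChar K L hζ h).2 = hζ.autToPow K h := rfl

/-- the defining property of the restriction -/
theorem restrict_commutes (h : L' ≃ₐ[K] L') (l : L) :
    algebraMap L L' (AlgEquiv.restrictNormalHom L h l) = h (algebraMap L L' l) :=
  AlgEquiv.restrictNormal_commutes h L l

variable [IsCyclotomicExtension {m} L L']

include hζ in
/-- an automorphism of `L' = L(ζ)` is determined by its restriction to `L` and the image of `ζ` -/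
theorem algEquiv_ext {h h' : L' ≃ₐ[K] L'}
    (hL : ∀ l : L, h (algebraMap L L' l) = h' (algebraMap L L' l)) (hz : h ζ = h' ζ) : h = h' := by
  let S : Subalgebra L L' :=
    { carrier := {x | h x = h' x}
      mul_mem' := fun {a b} ha hb => by
        simp only [Set.mem_ofPred_eq] at ha hb ⊢
        rw [map_mul, map_mul, ha, hb]
      add_mem' := fun {a b} ha hb => by
        simp only [Set.mem_ofPred_eq] at ha hb ⊢
        rw [map_add, map_add, ha, hb]
      algebraMap_mem' := hL }
  have h1 : Algebra.adjoin L {ζ} ≤ S := Algebra.adjoin_le (by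
    intro x hx
    rw [Set.mem_singleton_iff] at hx
    rw [hx]
    exact hz)
  rw [IsCyclotomicExtension.adjoin_primitive_root_eq_top hζ] at h1
  ext x
  exact h1 (Algebra.mem_top : x ∈ (⊤ : Subalgebra L L'))

theorem resChar_injective : Function.Injective (resChar K L hζ) := by
  intro h h' hh
  have h1 : AlgEquiv.restrictNormalHom L h = AlgEquiv.restrictNormalHom L h' :=
    congrArg Prod.fst hh
  have h2 : hζ.autToPow K h = hζ.autToPow K h' := congrArg Prod.snd hh
  refine algEquiv_ext (L := L) hζ (fun l => ?_) ?_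
  · rw [← restrict_commutes h l, ← restrict_commutes h' l, h1]
  · rw [apply_zeta K hζ h, apply_zeta K hζ h', h2]

end ResChar

section Bijective

variable {m : ℕ} [Fact m.Prime] {ζ : L'} (hζ : IsPrimitiveRoot ζ m) [IsGalois K L]
  [FiniteDimensional K L] [IsCyclotomicExtension {m} L L']

attribute [local instance] neZero_of_prime

theorem card_units_zmod : Nat.card (ZMod m)ˣ = m - 1 := by
  rw [Nat.card_eq_fintype_card, ZMod.card_units_eq_totient, Nat.totient_prime Fact.out]

/-- when `Φ_m` is irreducible over `L`, restriction and cyclotomic character identify `Gal(L'/K)`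
with `Gal(L/K) × (ZMod m)ˣ` -/
theorem resChar_bijective (hirr : Irreducible (cyclotomic m L)) :
    Function.Bijective (resChar K L hζ) := by
  haveI : IsGalois K L' := isGalois_of_cyclotomic K L L' m
  haveI : FiniteDimensional L L' := IsCyclotomicExtension.finiteDimensional {m} L L'
  haveI : FiniteDimensional K L' := Module.Finite.trans L L'
  have hcard : Nat.card ((L ≃ₐ[K] L) × (ZMod m)ˣ) = Nat.card (L' ≃ₐ[K] L') := by
    rw [Nat.card_prod, IsGalois.card_aut_eq_finrank, IsGalois.card_aut_eq_finrank,
      ← Module.finrank_mul_finrank K L L', IsCyclotomicExtension.finrank L' hirr,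
      card_units_zmod, Nat.totient_prime Fact.out]
  exact (resChar_injective hζ).bijective_of_nat_card_le hcard.le

/-- **an automorphism of `L'` with given restriction to `L` and given cyclotomic character** -/
theorem exists_aut (hirr : Irreducible (cyclotomic m L)) (σ : L ≃ₐ[K] L) (τ : (ZMod m)ˣ) :
    ∃ g : L' ≃ₐ[K] L', AlgEquiv.restrictNormalHom L g = σ ∧ hζ.autToPow K g = τ := by
  obtain ⟨g, hg⟩ := (resChar_bijective hζ hirr).2 (σ, τ)
  exact ⟨g, congrArg Prod.fst hg, congrArg Prod.snd hg⟩

theorem orderOf_eq {g : L' ≃ₐ[K] L'} {σ : L ≃ₐ[K] L} {τ : (ZMod m)ˣ}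
    (hσ : AlgEquiv.restrictNormalHom L g = σ) (hτ : hζ.autToPow K g = τ)
    (hdvd : orderOf σ ∣ orderOf τ) : orderOf g = orderOf τ := by
  have h1 : orderOf (resChar K L hζ g) = orderOf g :=
    orderOf_injective (resChar K L hζ) (resChar_injective hζ) g
  have h2 : resChar K L hζ g = (σ, τ) := Prod.ext hσ hτ
  rw [← h1, h2, Prod.orderOf_mk]
  exact Nat.lcm_eq_right hdvd

/-- `g ^ j` fixes `ζ` only if `g ^ j = 1`, when `orderOf (res g) ∣ orderOf (char g)` -/
theorem pow_eq_one_of_apply_zeta {g : L' ≃ₐ[K] L'}
    (hdvd : orderOf (AlgEquiv.restrictNormalHom L g) ∣ orderOf (hζ.autToPow K g)) {j : ℕ}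
    (hj : (g ^ j) ζ = ζ) : g ^ j = 1 := by
  have h1 : hζ.autToPow K (g ^ j) = 1 := by
    rw [autToPow_eq_iff K hζ, hj, Units.val_one, ZMod.val_one, pow_one]
  rw [map_pow] at h1
  have h2 : orderOf g ∣ j := by
    rw [orderOf_eq hζ rfl rfl hdvd]
    exact orderOf_dvd_of_pow_eq_one h1
  exact orderOf_dvd_iff_pow_eq_one.mp h2

include hζ in
/-- the centralizer of `g` injects into `C(σ) × (ZMod m)ˣ` -/
theorem card_centralizer_le {g : L' ≃ₐ[K] L'} {σ : L ≃ₐ[K] L}
    (hσ : AlgEquiv.restrictNormalHom L g = σ) :
    Nat.card (Subgroup.centralizer {g}) ≤ Nat.card (Subgroup.centralizer {σ}) * (m - 1) := by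
  haveI : IsGalois K L' := isGalois_of_cyclotomic K L L' m
  haveI : FiniteDimensional L L' := IsCyclotomicExtension.finiteDimensional {m} L L'
  haveI : FiniteDimensional K L' := Module.Finite.trans L L'
  let f : Subgroup.centralizer {g} → Subgroup.centralizer {σ} × (ZMod m)ˣ := fun h =>
    (⟨AlgEquiv.restrictNormalHom L h.1, by
      rw [Subgroup.mem_centralizer_singleton_iff]
      have := Subgroup.mem_centralizer_singleton_iff.mp h.2
      rw [← hσ, ← map_mul, ← map_mul, this]⟩, hζ.autToPow K h.1)
  have hf : Function.Injective f := by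
    intro h h' hh
    apply Subtype.ext
    apply resChar_injective (K := K) (L := L) hζ
    have h1 : AlgEquiv.restrictNormalHom L h.1 = AlgEquiv.restrictNormalHom L h'.1 :=
      congrArg (fun x => (x.1 : L ≃ₐ[K] L)) hh
    have h2 : hζ.autToPow K h.1 = hζ.autToPow K h'.1 := congrArg Prod.snd hh
    exact Prod.ext h1 h2
  have := Nat.card_le_card_of_injective f hf
  rwa [Nat.card_prod, card_units_zmod] at this

end Bijective

end Fermat.Agent.S48.A.Cheb.Cross.Gal

end
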