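import Mathlib
import Fermat.Agent.S48.A.Cheb.Seams
import Fermat.Agent.S48.A.Cheb.Cross.Gal

/-!
# S48 / part A / A6 (Chebotarev) / brick C9: descent of Frobenius classes along `L ⊆ L'`

`L ⊆ L'` Galois number fields over `ℚ`, `g ∈ Gal(L'/ℚ)`.  If `g` is the Frobenius at an unramified
prime of `L'` over `p` then its restriction to `L` is the Frobenius at an unramified prime of `L`
over `p`, and (for a primitive `m`-th root of unity `ζ ∈ L'`, `p ≠ m`) the cyclotomic character of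
`g` is the class of `p` modulo `m`.
-/

set_option autoImplicit false
set_option linter.style.haveILetI false
set_option linter.unusedSectionVars false

noncomputable section

namespace Fermat.Agent.S48.A.Cheb.Cross.Frob

open NumberField Fermat.Agent.S48.A.Cheb.Seams

variable {L L' : Type} [Field L] [NumberField L] [IsGalois ℚ L] [Field L'] [NumberField L']
  [Algebra L L'] [IsGalois ℚ L']

/-- the prime of `ℤ` below a prime ideal containing the rational prime `p` -/
theorem under_int_eq_span {K : Type*} [Field K] [NumberField K] {Q : Ideal (𝓞 K)} [Q.IsPrime]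
    {p : ℕ} (hp : p.Prime) (hpQ : (p : 𝓞 K) ∈ Q) : Q.under ℤ = Ideal.span {(p : ℤ)} := by
  haveI : Fact p.Prime := ⟨hp⟩
  have hmax : (Ideal.span {(p : ℤ)}).IsMaximal := Int.ideal_span_isMaximal_of_prime p
  have hle : Ideal.span {(p : ℤ)} ≤ Q.under ℤ := by
    rw [Ideal.span_singleton_le_iff_mem, Ideal.under_def, Ideal.mem_comap]
    simpa using hpQ
  have hne : Q.under ℤ ≠ ⊤ := Ideal.IsPrime.ne_top inferInstance
  exact (hmax.eq_of_le hne hle).symm

theorem card_quot_under_int {K : Type*} [Field K] [NumberField K] {Q : Ideal (𝓞 K)} [Q.IsPrime]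
    {p : ℕ} (hp : p.Prime) (hpQ : (p : 𝓞 K) ∈ Q) : Nat.card (ℤ ⧸ Q.under ℤ) = p := by
  rw [under_int_eq_span hp hpQ, Int.card_ideal_quot]

/-- **descent of the Frobenius class to a Galois subfield** -/
theorem frobClassAt_restrict (g : L' ≃ₐ[ℚ] L') {p : ℕ} (h : FrobClassAt L' g p) :
    FrobClassAt L (AlgEquiv.restrictNormalHom L g) p := by
  obtain ⟨Q', hQ', hpQ', hunr, hfrob⟩ := h
  haveI := hQ'
  haveI := hunr
  refine ⟨Q'.under (𝓞 L), inferInstance, ?_, ?_, ?_⟩
  · rw [Ideal.under_def, Ideal.mem_comap, map_natCast]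
    exact hpQ'
  · exact Algebra.IsUnramifiedAt.of_liesOver ℤ (Q'.under (𝓞 L)) Q'
  · intro x
    rw [Ideal.under_under, Ideal.under_def, Ideal.mem_comap]
    have h1 := hfrob (algebraMap (𝓞 L) (𝓞 L') x)
    have h2 : algebraMap (𝓞 L) (𝓞 L')
        ((MulSemiringAction.toAlgHom ℤ (𝓞 L) (AlgEquiv.restrictNormalHom L g)) x -
          x ^ Nat.card (ℤ ⧸ Q'.under ℤ)) =
        (MulSemiringAction.toAlgHom ℤ (𝓞 L') g) (algebraMap (𝓞 L) (𝓞 L') x) -
          (algebraMap (𝓞 L) (𝓞 L') x) ^ Nat.card (ℤ ⧸ Q'.under ℤ) := by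
      rw [map_sub, map_pow]
      congr 1
      apply RingOfIntegers.ext
      exact AlgEquiv.restrictNormal_commutes g L (x : L)
    rw [h2]
    exact h1

/-- **the cyclotomic character of a Frobenius element at `p ≠ m` is `p mod m`** -/
theorem natCast_eq_autToPow {m : ℕ} [Fact m.Prime] [NeZero m] {ζ : L'} (hζ : IsPrimitiveRoot ζ m)
    (g : L' ≃ₐ[ℚ] L') {p : ℕ} (hp : p.Prime) (hpm : p ≠ m) (h : FrobClassAt L' g p) :
    (p : ZMod m) = ((hζ.autToPow ℚ g : (ZMod m)ˣ) : ZMod m) := by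
  obtain ⟨Q', hQ', hpQ', -, hfrob⟩ := h
  haveI := hQ'
  have hm : m.Prime := Fact.out
  -- `m ∉ Q'`
  have hmQ' : (m : 𝓞 L') ∉ Q' := by
    intro hmQ'
    have hcop : IsCoprime (p : ℤ) (m : ℤ) :=
      Nat.isCoprime_iff_coprime.mpr ((Nat.coprime_primes hp hm).mpr hpm)
    obtain ⟨u, v, huv⟩ := hcop
    have h1 : ((u * p + v * m : ℤ) : 𝓞 L') ∈ Q' := by
      push_cast
      exact Q'.add_mem (Q'.mul_mem_left _ hpQ') (Q'.mul_mem_left _ hmQ')
    rw [huv, Int.cast_one] at h1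
    exact (Ideal.IsPrime.ne_top hQ') ((Ideal.eq_top_iff_one Q').mpr h1)
  -- `ζ` as an algebraic integer
  let ζ' : 𝓞 L' := ⟨ζ, hζ.isIntegral hm.pos⟩
  have hζ' : ζ' ^ m = 1 := by
    apply RingOfIntegers.ext
    show ζ ^ m = 1
    exact hζ.pow_eq_one
  have h1 := AlgHom.IsArithFrobAt.apply_of_pow_eq_one hfrob hζ' hmQ'
  rw [card_quot_under_int hp hpQ'] at h1
  have h2 : g ζ = ζ ^ p := congrArg (fun x : 𝓞 L' => (x : L')) h1
  rw [Gal.apply_zeta ℚ hζ g, Gal.pow_eq_pow_iff hζ, ZMod.natCast_zmod_val] at h2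
  exact h2.symm

end Fermat.Agent.S48.A.Cheb.Cross.Frob

end
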